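import Mathlib
import Fermat.Prelude.Thm_ModularForm_sturm_bound_Gamma0

set_option autoImplicit false

open UpperHalfPlane
open scoped MatrixGroups

namespace FLTAgent.SmallWeightTwo

lemma row_eq_imp (N : ℕ) (g h : SL(2, ℤ))
    (h0 : ((g 1 0 : ℤ) : ZMod N) = (h 1 0 : ℤ)) (h1 : ((g 1 1 : ℤ) : ZMod N) = (h 1 1 : ℤ)) :
    g * h⁻¹ ∈ CongruenceSubgroup.Gamma0 N := by
  rw [CongruenceSubgroup.Gamma0_mem]
  simp only [Matrix.SpecialLinearGroup.coe_mul, Matrix.SpecialLinearGroup.coe_inv, Matrix.adjugate_fin_two,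
    Matrix.mul_apply, Fin.sum_univ_two]
  simp
  rw [h0, h1]; ring

theorem eq_zero_of_small (N : ℕ) [NeZero N] (hN : N * N ≤ 5) (f : CuspForm (CongruenceSubgroup.Gamma0 N) 2) :
    f = 0 := by
  classical
  have hidx : (CongruenceSubgroup.Gamma0 N).index ≤ N * N := by
    let G := CongruenceSubgroup.Gamma0 N
    let r : SL(2, ℤ) → ZMod N × ZMod N := fun g => (((g⁻¹ : SL(2, ℤ)) 1 0 : ℤ), ((g⁻¹ : SL(2, ℤ)) 1 1 : ℤ))
    have hinj : Function.Injective (fun q : SL(2, ℤ) ⧸ G => r q.out) := by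
      intro x y hxy
      rw [← QuotientGroup.out_eq' x, ← QuotientGroup.out_eq' y, QuotientGroup.eq]
      simp only [r, Prod.mk.injEq] at hxy
      have := row_eq_imp N _ _ hxy.1 hxy.2
      rwa [inv_inv] at this
    calc G.index = Nat.card (SL(2, ℤ) ⧸ G) := rfl
      _ ≤ Nat.card (ZMod N × ZMod N) := Nat.card_le_card_of_injective _ hinj
      _ = N * N := by simp [Nat.card_prod]
  let F : ModularForm (CongruenceSubgroup.Gamma0 N) 2 :=
    { toFun := f
      slash_action_eq' := fun γ hγ => SlashInvariantFormClass.slash_action_eq f γ hγ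
      holo' := CuspFormClass.holo f
      bdd_at_cusps' := fun {c} hc g hg => (CuspFormClass.zero_at_cusps f hc g hg).isBoundedAtImInfty }
  have hper : (1 : ℝ) ∈ (CongruenceSubgroup.Gamma0 N : Subgroup (GL (Fin 2) ℝ)).strictPeriods := by
    simp [CongruenceSubgroup.strictPeriods_Gamma0]
  have hF : F = 0 := by
    refine ModularForm.sturm_bound_Gamma0 N F fun n hn => ?_
    have hn0 : n = 0 := by
      have : ((2 : ℤ) * (CongruenceSubgroup.Gamma0 N).index).toNat / 12 = 0 := by
        apply Nat.div_eq_of_lt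
        omega
      omega
    subst hn0
    show (qExpansion 1 (⇑f)).coeff 0 = 0
    exact CuspFormClass.qExpansion_coeff_zero f (by norm_num) hper
  apply DFunLike.ext
  intro z
  exact congrArg (fun G : ModularForm (CongruenceSubgroup.Gamma0 N) 2 => G z) hF

end FLTAgent.SmallWeightTwo
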