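import Fermat.Statements.S34
import Fermat.Agent.SS.Fibre
import Fermat.Agent.SS.Unipotent
import Fermat.Agent.Attach.Interface
-- import your own Fermat.Agent.* helpers here

set_option autoImplicit false
set_option autoImplicit false
open IsLocalRing
open CuspForm CuspForm.HeckeGaloisRepDatum

namespace Fermat.Agent.S34

theorem result
    {𝒪 : Type} [CommRing 𝒪] [IsDomain 𝒪] [IsDiscreteValuationRing 𝒪]
    [IsAdicComplete (maximalIdeal 𝒪) 𝒪] [Finite (ResidueField 𝒪)] [CharZero 𝒪]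
    {p : ℕ} (hp : p.Prime) (hp𝒪 : (p : 𝒪) ∈ maximalIdeal 𝒪)
    {N : ℕ} [NeZero N] {S : Finset ℕ} (hpS : p ∈ S) (hNS : ∀ q : ℕ, q.Prime → q ∣ N → q ∈ S)
    {θ : CuspForm.heckeAlgebra N 2 (↑S : Set ℕ) →+* ResidueField 𝒪}
    {T : Type} [CommRing T] [IsLocalRing T] [IsNoetherianRing T]
    [IsAdicComplete (maximalIdeal T) T] [Algebra 𝒪 T] [IsLocalHom (algebraMap 𝒪 T)]
    [Module.Finite 𝒪 T] [Module.Free 𝒪 T]
    (H : CuspForm.HeckeGaloisRepDatum N (↑S : Set ℕ) 𝒪 θ T)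
    (q : ℕ) (hq : q.Prime) (hqp : q ≠ p) (hqN : q ∣ N) (hq2 : ¬ q ^ 2 ∣ N) :
    H.ρ.IsUnipotentOnInertiaAt q := by
  obtain ⟨D⟩ := FLTAgent.Attach.exists_heckeLattice N
  haveI : NeZero q := ⟨hq.ne_zero⟩
  obtain ⟨M, hM⟩ : ∃ M, N = M * q := ⟨N / q, (Nat.div_mul_cancel hqN).symm⟩
  haveI : NeZero M := ⟨fun h => NeZero.ne N (by rw [hM, h, zero_mul])⟩
  have hqM : ¬ q ∣ M := fun h => hq2 (by rw [hM, sq]; exact mul_dvd_mul h dvd_rfl)
  exact FLTAgent.SS.isUnipotent_datum hM hq hqM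
    (fun A hA => FLTAgent.SS.fibreInputs ⟨hq, hqM, hA⟩) D (FLTAgent.Attach.galoisInputs N) hp hp𝒪
    hpS hNS H hqp

end Fermat.Agent.S34
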