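import Fermat.Statements.S33
import Fermat.Agent.TOR.Identity
import Fermat.Agent.TOR.OrdLine

set_option autoImplicit false
variable {p : ℕ} {N : ℕ} [NeZero N] {S : Finset ℕ}
  {𝒪 : Type} [CommRing 𝒪] [IsDomain 𝒪] [IsDiscreteValuationRing 𝒪]
  [IsAdicComplete (IsLocalRing.maximalIdeal 𝒪) 𝒪]
  {θ : CuspForm.heckeAlgebra N 2 (↑S : Set ℕ) →+* IsLocalRing.ResidueField 𝒪}
  {T : Type} [CommRing T] [IsLocalRing T] [IsNoetherianRing T]
  [IsAdicComplete (IsLocalRing.maximalIdeal T) T] [Algebra 𝒪 T] [IsLocalHom (algebraMap 𝒪 T)]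
  [Module.Finite 𝒪 T] [Module.Free 𝒪 T]
open CuspForm CuspForm.HeckeGaloisRepDatum

namespace Fermat.Agent.S33

theorem result
    [Finite (IsLocalRing.ResidueField 𝒪)] [CharZero 𝒪]
    (hp : p.Prime) (hp2 : p ≠ 2) (hp𝒪 : (p : 𝒪) ∈ IsLocalRing.maximalIdeal 𝒪) (hN : p ∣ N ∧ ¬ p ^ 2 ∣ N)
    (hNS : ∀ q : ℕ, q.Prime → q ∣ N → q ∈ S)
    (H : CuspForm.HeckeGaloisRepDatum N (↑S : Set ℕ) 𝒪 θ T)
    (hres : (GaloisRepAdic.ofResidualGaloisRep H.ρ.residual).IsOrdinaryAt p) :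
    H.ρ.IsOrdinaryAt p := by
  classical
  obtain ⟨M, rfl⟩ : ∃ M, N = M * p := by
    obtain ⟨M, hM⟩ := hN.1
    exact ⟨M, hM.trans (Nat.mul_comm p M)⟩
  haveI : NeZero p := ⟨hp.ne_zero⟩
  haveI : NeZero M := ⟨fun h => NeZero.ne (M * p) (by rw [h, Nat.zero_mul])⟩
  have hpM : ¬ p ∣ M := fun h => hN.2 (by rw [pow_two]; exact Nat.mul_dvd_mul_right h p)
  refine FLTAgent.TOR.isOrdinaryAt_of_relation H.ρ (fun P hP => ?_) fun P hP σ hσ τ hτ v =>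
    FLTAgent.TOR.ordinary_relation hp hp2 hpM hp𝒪 hNS H hres hP hσ hτ v
  have hpS : p ∈ S := hNS p hp (Dvd.intro_left M rfl)
  obtain ⟨D⟩ := FLTAgent.Attach.exists_heckeLattice (M * p)
  have hpT : (p : T) ∈ IsLocalRing.maximalIdeal T := by
    rw [← map_natCast (algebraMap 𝒪 T)]
    exact map_nonunit (algebraMap 𝒪 T) _ hp𝒪
  haveI := Fact.mk hp
  haveI : CharP (IsLocalRing.ResidueField T) p := by
    refine (CharP.charP_iff_prime_eq_zero hp).mpr ?_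
    rw [← map_natCast (IsLocalRing.residue T), IsLocalRing.residue_eq_zero_iff]
    exact hpT
  obtain ⟨ζ, hζ⟩ := HasEnoughRootsOfUnity.exists_primitiveRoot (AlgebraicClosure ℚ) p
  obtain ⟨τ, hτ, hmove⟩ := FLTAgent.TOR.exists_inertia_moves (A := P) (p := p) hp hP hp2 hζ
  obtain ⟨t, -, -, hdet⟩ := FLTAgent.SS.exists_model D (FLTAgent.Attach.galoisInputs (M * p)) hp hpS
    hNS hpT H 1 (n := p) (j := 1) (pow_one p).symm le_rfl τ
  rw [pow_one, ← IsLocalRing.residue_eq_zero_iff, map_sub, map_natCast, sub_eq_zero] at hdet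
  refine ⟨τ, hτ, ?_⟩
  rw [← IsLocalRing.residue_ne_zero_iff_isUnit, map_sub, map_one, hdet, sub_ne_zero]
  intro h1
  apply hmove
  rw [FLTAgent.Attach.cyc_spec τ hζ.pow_eq_one]
  have h2 : (FLTAgent.Attach.cyc p τ).val = 1 := by
    rw [← Nat.cast_one, CharP.natCast_eq_natCast (IsLocalRing.ResidueField T) p] at h1
    exact (Nat.ModEq.eq_of_lt_of_lt h1 (ZMod.val_lt _) hp.one_lt)
  rw [h2, pow_one]

end Fermat.Agent.S33
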