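import Fermat.Statements.S02

set_option autoImplicit false
open FreyPackage

namespace Fermat.Agent.S02

private lemma zmod4_cases (x : ZMod 4) (h : (ZMod.castHom (show 2 ∣ 4 by norm_num) (ZMod 2)) x = 1) :
    x = 1 ∨ x = 3 := by
  revert h; revert x; decide

private lemma normalized (a b c : ℤ) (ha : a ≠ 0) (hb : b ≠ 0) (hc : c ≠ 0) (p : ℕ) (pp : p.Prime)
    (hp5 : 5 ≤ p) (H : a ^ p + b ^ p = c ^ p) (hg : Int.gcd a b = 1) (hb2 : (b : ZMod 2) = 0) :
    Nonempty FreyPackage := by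
  have hodd : Odd p := pp.odd_of_ne_two (by omega)
  have ha2 : (a : ZMod 2) = 1 := by
    by_contra h
    have h0 : (a : ZMod 2) = 0 := by revert h; generalize (a : ZMod 2) = x; revert x; decide
    rw [ZMod.intCast_zmod_eq_zero_iff_dvd] at h0 hb2
    have := Int.dvd_gcd h0 hb2
    rw [hg] at this
    norm_num at this
  have ha4 : (a : ZMod 4) = 1 ∨ (a : ZMod 4) = 3 := by
    apply zmod4_cases
    rw [map_intCast]; exact ha2
  have hgcd : gcd a b = 1 := by rw [← Int.coe_gcd, hg]; rfl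
  rcases ha4 with h | h
  · refine ⟨⟨-a, -b, -c, neg_ne_zero.2 ha, neg_ne_zero.2 hb, neg_ne_zero.2 hc, p, pp, hp5, ?_, ?_, ?_, ?_⟩⟩
    · rw [hodd.neg_pow, hodd.neg_pow, hodd.neg_pow, ← H]; ring
    · rw [← Int.coe_gcd, Int.gcd_neg, Int.neg_gcd, hg]; rfl
    · push_cast; rw [h]; decide
    · push_cast; rw [hb2]; decide
  · exact ⟨⟨a, b, c, ha, hb, hc, p, pp, hp5, H, hgcd, h, hb2⟩⟩

theorem result (a b c : ℤ) (ha : a ≠ 0) (hb : b ≠ 0) (hc : c ≠ 0) (p : ℕ) (pp : p.Prime) (hp5 : 5 ≤ p) (H : a ^ p + b ^ p = c ^ p) : Nonempty FreyPackage := by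
  have hgpos : 0 < Int.gcd a b := Int.gcd_pos_of_ne_zero_left _ ha
  obtain ⟨a', b', hg, ha', hb'⟩ := Int.exists_gcd_one hgpos
  set g : ℤ := (Int.gcd a b : ℤ) with hgdef
  have hg0 : g ≠ 0 := by rw [hgdef]; exact_mod_cast hgpos.ne'
  have hgc : g ∣ c := by
    rw [← Int.pow_dvd_pow_iff pp.ne_zero, ← H, ha', hb', mul_pow, mul_pow]
    exact dvd_add (dvd_mul_left _ _) (dvd_mul_left _ _)
  obtain ⟨c', hc'⟩ := hgc
  have H' : a' ^ p + b' ^ p = c' ^ p := by
    have : g ^ p * (a' ^ p + b' ^ p) = g ^ p * c' ^ p := by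
      rw [← mul_pow g c', ← hc', ← H, ha', hb']; ring
    exact mul_left_cancel₀ (pow_ne_zero _ hg0) this
  have ha0 : a' ≠ 0 := by rintro rfl; simp [ha'] at ha
  have hb0 : b' ≠ 0 := by rintro rfl; simp [hb'] at hb
  have hc0 : c' ≠ 0 := by rintro rfl; simp [hc'] at hc
  have hodd : Odd p := pp.odd_of_ne_two (by omega)
  by_cases h2b : (b' : ZMod 2) = 0
  · exact normalized a' b' c' ha0 hb0 hc0 p pp hp5 H' hg h2b
  by_cases h2a : (a' : ZMod 2) = 0
  · exact normalized b' a' c' hb0 ha0 hc0 p pp hp5 (by rw [← H']; ring) (by rw [Int.gcd_comm]; exact hg) h2a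
  · have h2c : (c' : ZMod 2) = 0 := by
      have h := congrArg (Int.cast : ℤ → ZMod 2) H'
      push_cast at h
      have e1 : ∀ x : ZMod 2, x ≠ 0 → x = 1 := by decide
      rw [e1 _ h2a, e1 _ h2b, one_pow] at h
      by_contra hh
      rw [e1 _ hh, one_pow] at h
      exact absurd h (by decide)
    refine normalized a' (-c') (-b') ha0 (neg_ne_zero.2 hc0) (neg_ne_zero.2 hb0) p pp hp5 ?_ ?_ (by push_cast; rw [h2c]; decide)
    · rw [hodd.neg_pow, hodd.neg_pow, ← H']; ring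
    · rw [Int.gcd_neg]
      have hco : IsCoprime a' b' := Int.isCoprime_iff_gcd_eq_one.2 hg
      have : IsCoprime a' (c' ^ p) := by
        rw [← H']
        have h1 : IsCoprime a' (b' ^ p) := hco.pow_right
        obtain ⟨k, hk⟩ : ∃ k, p = k + 1 := ⟨p - 1, by omega⟩
        have : a' ^ p = a' * a' ^ k := by rw [hk, pow_succ]; ring
        rw [this, add_comm]
        exact h1.add_mul_left_right _
      exact Int.isCoprime_iff_gcd_eq_one.1 ((IsCoprime.pow_right_iff (Nat.pos_of_ne_zero pp.ne_zero)).1 this)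

end Fermat.Agent.S02
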