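import Fermat.Statements.S13
import Fermat.Agent.Torsion.Reducible
import Fermat.Agent.Local.Frey

set_option autoImplicit false
open WeierstrassCurve WeierstrassCurve.Affine WeierstrassCurve.Affine.Point
open CuspForm ModularFormClass UpperHalfPlane
open FreyPackage

namespace Fermat.Agent.S13

theorem result (P : FreyPackage) (hred : ¬ GaloisRepIsIrreducible (K := AlgebraicClosure ℚ) ℚ P.freyCurve P.p) : HasGaloisStableCofixedLine (K := AlgebraicClosure ℚ) ℚ P.freyCurve P.p := by
  rw [FLTAgent.Local.freyCurve_eq P] at hred ⊢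
  exact FLTAgent.Torsion.cofixed_of_semistable (FLTAgent.Local.freyCurveInt_Δ_ne_zero P)
    (fun q hq => FLTAgent.Local.freyCurveInt_semistable P hq) P.pp P.hp5
    (FLTAgent.Local.freyCurveInt_two_dvd_Δ P) (FLTAgent.Local.freyCurveInt_padicValInt_two P) hred

end Fermat.Agent.S13
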