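import Fermat.Statements.S04
import Fermat.Agent.R2.Main
import Fermat.Agent.R2.Top
import Fermat.Agent.SW3.Five
import Fermat.Agent.SW3.Anchor

set_option autoImplicit false
open WeierstrassCurve WeierstrassCurve.Affine WeierstrassCurve.Affine.Point
open CuspForm ModularFormClass UpperHalfPlane
open FreyPackage

namespace Fermat.Agent.S04

theorem result (P : FreyPackage) : P.freyCurve.IsModular :=
  FLTAgent.R2.freyCurve_isModular FLTAgent.R2.anchorModular FLTAgent.SW3.anchorSwitch FLTAgent.SW3.fiveSwitch P

end Fermat.Agent.S04
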