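import Fermat.Statements.S05
import Fermat.Agent.Local.API
import Fermat.Agent.Local.Frey

set_option autoImplicit false
open WeierstrassCurve WeierstrassCurve.Affine WeierstrassCurve.Affine.Point
open CuspForm ModularFormClass UpperHalfPlane
open FreyPackage

namespace Fermat.Agent.S05

theorem result (P : FreyPackage) {q : ℕ} (hq : q.Prime) (hq2 : q ≠ 2) (hqp : q ≠ P.p) : P.GaloisRepUnramifiedAt q := by
  intro A hA σ hσ x
  have key : ∀ (E : WeierstrassCurve ℚ), E = P.freyCurveInt.map (Int.castRingHom ℚ) →
      ∀ y : Submodule.torsionBy ℤ (E⁄(AlgebraicClosure ℚ)).Point (P.p : ℤ), σ • y = y := by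
    rintro E rfl y
    apply Subtype.ext
    have hy : P.p • (y : (((P.freyCurveInt.map (Int.castRingHom ℚ)))⁄(AlgebraicClosure ℚ)).Point)
        = 0 := by
      rw [← natCast_zsmul]
      exact y.2
    exact FLTAgent.Local.inertia_fix_of_dvd hA hq
      (fun h => FLTAgent.Local.freyCurveInt_semistable P hq h)
      (FLTAgent.Local.freyCurveInt_Δ_ne_zero P) P.pp (by have := P.hp5; omega) hqp
      (FLTAgent.Local.freyCurveInt_padicValInt_odd P hq hq2) hσ hy
  exact key _ (FLTAgent.Local.freyCurve_eq P) x

end Fermat.Agent.S05
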