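import Fermat.Statements.S16
import Fermat.Agent.Periods.Eis.Lower
import Fermat.Agent.Periods.Eis.Lift
import Fermat.Agent.RR.Dim

set_option autoImplicit false
open ModularCurve CuspForm
open ModularCurve

namespace Fermat.Agent.S16

open FLTAgent.Periods FLTAgent.Periods.Eis in
theorem result
    (p : ℕ) [Fact p.Prime] :
    Nat.card (↥(heckeLatticeAlgebra p ∅) ⧸
        Ideal.map ((latticeRestrictHom p ∅).toRingHom.comp (heckeEvalForms p 2))
          (eisensteinIdeal p)) =
      eisensteinNumerator p := by
  haveI : NeZero p := ⟨(Fact.out : p.Prime).ne_zero⟩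
  have hdim := FLTAgent.RR.genusFormula_le_finrank_cuspForm p
  refine card_quotient_map_eq (latticeEval p) (eisChar p) (latticeEval_surjective p)
    (eisChar_surjective p) (eisensteinNumerator p) ?_
  obtain ⟨m, hm⟩ : ∃ m : ℕ,
      (RingHom.ker (latticeEval p)).map (eisChar p) = Ideal.span {(m : ℤ)} := by
    obtain ⟨z, hz⟩ := Submodule.IsPrincipal.principal ((RingHom.ker (latticeEval p)).map (eisChar p))
    exact ⟨z.natAbs, by rw [hz, Int.span_natAbs]⟩
  refine le_antisymm (Ideal.map_le_iff_le_comap.mpr fun P hP =>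
    Ideal.mem_comap.mpr (Ideal.mem_span_singleton.mpr ?_)) ?_
  · exact numerator_dvd_of_mem_ker p (eichlerShimura_of_dim hdim).2 (exists_integral_lift p hdim) hP
  · rw [hm, Ideal.span_singleton_le_span_singleton]
    exact Int.natCast_dvd_natCast.mpr (dvd_numerator_of_map_ker_eq p hm)

end Fermat.Agent.S16
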