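import Fermat.Statements.S36
import Fermat.Agent.SS2.NotUnipotent
import Fermat.Agent.SS2.CoeffRing

set_option autoImplicit false
set_option autoImplicit false
open Polynomial
open CuspForm CuspForm.IsNewform

namespace Fermat.Agent.S36

theorem result
    {M : ℕ} [NeZero M] {g : CuspForm (CongruenceSubgroup.Gamma0 M) 2} (hg : g.IsNewform)
    (lam : ℕ) [Fact lam.Prime]
    (S : Finset ℕ)
    (O' : Type) [CommRing O'] [IsDomain O'] [IsDiscreteValuationRing O']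
    [IsAdicComplete (IsLocalRing.maximalIdeal O') O'] [Finite (IsLocalRing.ResidueField O')]
    [CharZero O'] (hlamO' : (lam : O') ∈ IsLocalRing.maximalIdeal O')
    (hlam2 : lam ≠ 2)
    (chig : CuspForm.heckeAlgebra M 2 (↑S : Set ℕ) →+* ℂ)
    (hchig : ∀ (ℓ : ℕ) (hℓ : ℓ.Prime) (hℓM : ¬ ℓ ∣ M) (hℓS : ℓ ∉ (↑S : Set ℕ)),
      chig (CuspForm.heckeAlgebra.T hℓ hℓM hℓS) = ModularFormClass.qCoeff g ℓ)
    (iota : chig.range →+* O')
    (hlamS : lam ∈ S) (hMS : ∀ q : ℕ, q.Prime → q ∣ M → q ∈ S)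
    (hres : ∀ (O'' : Type) [CommRing O''] [IsDomain O''] [IsDiscreteValuationRing O'']
      [IsAdicComplete (IsLocalRing.maximalIdeal O'') O''] [Finite (IsLocalRing.ResidueField O'')] [CharZero O'']
      [Algebra O' O''] [Module.Finite O' O''] [IsLocalHom (algebraMap O' O'')],
      Function.Injective (algebraMap O' O'') → ∀ (ρ : GaloisRepAdic O''),
      (∀ (ℓ : ℕ) (hℓ : ℓ.Prime) (hℓlam : ℓ ≠ lam) (hℓM : ¬ ℓ ∣ M) (hℓS : ℓ ∉ (↑S : Set ℕ)),
        ∀ A : ValuationSubring (AlgebraicClosure ℚ), A.LiesOverPrime ℓ →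
          ∀ σ : AlgebraicClosure ℚ ≃ₐ[ℚ] AlgebraicClosure ℚ, A.IsFrobeniusAt σ ℓ →
            LinearMap.charpoly (ρ.ρ σ) =
              X ^ 2 - C (algebraMap O' O'' ((iota.comp chig.rangeRestrict) (CuspForm.heckeAlgebra.T hℓ hℓM hℓS))) * X
                + C ((ℓ : O'')))
      → ρ.residual.IsAbsolutelyIrreducible ∧ ρ.residual.IsOdd)
    :
    ∃ (O'' : Type) (_ : CommRing O'') (_ : IsDomain O'') (_ : IsDiscreteValuationRing O'')
      (_ : IsAdicComplete (IsLocalRing.maximalIdeal O'') O'') (_ : Finite (IsLocalRing.ResidueField O''))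
      (_ : CharZero O'') (_ : Algebra O' O'') (_ : Module.Finite O' O'') (_ : IsLocalHom (algebraMap O' O'')),
      Function.Injective (algebraMap O' O'') ∧
      ∃ ρ : GaloisRepAdic O'',
        (∀ (ℓ : ℕ) (hℓ : ℓ.Prime) (hℓM : ¬ ℓ ∣ M) (hℓS : ℓ ∉ (↑S : Set ℕ)),
          ∀ A : ValuationSubring (AlgebraicClosure ℚ), A.LiesOverPrime ℓ →
            ∀ σ : AlgebraicClosure ℚ ≃ₐ[ℚ] AlgebraicClosure ℚ, A.IsFrobeniusAt σ ℓ →
              LinearMap.charpoly (ρ.ρ σ) =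
                X ^ 2 - C (algebraMap O' O'' ((iota.comp chig.rangeRestrict) (CuspForm.heckeAlgebra.T hℓ hℓM hℓS))) * X
                  + C ((ℓ : O''))) ∧
        (∀ q : ℕ, q.Prime → q ≠ lam → M.factorization q = 2 → ¬ ρ.IsUnipotentOnInertiaAt q) := by
  classical
  have hlam : lam.Prime := Fact.out
  haveI := FLTAgent.Attach.finite_TFull M
  obtain ⟨χ, hχ⟩ := FLTAgent.Attach.exists_eigenCharacter hg.1
  let χC : FLTAgent.Attach.TFull M →+* ℂ := (integralClosure ℤ ℂ).val.toRingHom.comp χ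
  have hle : chig.range ≤ χC.range := by
    rintro _ ⟨⟨t, ht⟩, rfl⟩
    induction ht using Algebra.adjoin_induction with
    | mem t ht =>
      rcases ht with ⟨ℓ, hℓ, hℓM, hℓS, rfl⟩ | ⟨q, hqM, hq, hqS, rfl⟩
      · exact ⟨CuspForm.heckeAlgebra.T hℓ hℓM (Set.notMem_empty _),
          (hχ ℓ hℓ hℓM).trans (hchig ℓ hℓ hℓM hℓS).symm⟩
      · exact absurd (Finset.mem_coe.2 (hMS q hq hqM)) hqS
    | algebraMap m =>
      refine ⟨(m : FLTAgent.Attach.TFull M), ?_⟩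
      rw [map_intCast]
      exact (map_intCast chig m).symm
    | add x y hx hy hx' hy' =>
      exact (map_add chig ⟨x, hx⟩ ⟨y, hy⟩).symm ▸ add_mem hx' hy'
    | mul x y hx hy hx' hy' =>
      exact (map_mul chig ⟨x, hx⟩ ⟨y, hy⟩).symm ▸ mul_mem hx' hy'
  haveI : Module.Finite ℤ χC.range :=
    Module.Finite.of_surjective χC.rangeRestrict.toIntAlgHom.toLinearMap χC.rangeRestrict_surjective
  obtain ⟨g', hg'⟩ := FLTAgent.Attach.exists_extension (Subring.inclusion hle)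
    (Subring.inclusion_injective hle)
    ((algebraMap O' (AlgebraicClosure (FractionRing O'))).comp iota)
  have hinj : Function.Injective g' := by
    rw [RingHom.injective_iff_ker_eq_bot]
    haveI := RingHom.ker_isPrime g'
    haveI : Algebra.IsIntegral ℤ χC.range := Algebra.IsIntegral.of_finite ℤ _
    refine Ideal.eq_bot_of_comap_eq_bot (R := ℤ) ?_
    rw [eq_bot_iff]
    intro z hz
    rw [Ideal.mem_comap, RingHom.mem_ker, eq_intCast, map_intCast] at hz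
    exact Int.cast_eq_zero.mp hz
  obtain ⟨O'', iC, iD, iV, iA, iF, iZ, iAlg, iFin, iLoc, halg, f0, hf0, hf0z⟩ :=
    FLTAgent.SS2.exists_coeffRing O' g'
  have hlamO'' : (lam : O'') ∈ IsLocalRing.maximalIdeal O'' := by
    rw [← map_natCast (algebraMap O' O'')]
    exact map_nonunit (algebraMap O' O'') _ hlamO'
  let f : FLTAgent.Attach.TFull M →+* O'' := f0.comp χC.rangeRestrict
  have hfT : ∀ (ℓ : ℕ) (hℓ : ℓ.Prime) (hℓM : ¬ ℓ ∣ M) (hℓS : ℓ ∉ (↑S : Set ℕ)),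
      f (CuspForm.heckeAlgebra.T hℓ hℓM (Set.notMem_empty _)) =
        algebraMap O' O'' ((iota.comp chig.rangeRestrict) (CuspForm.heckeAlgebra.T hℓ hℓM hℓS)) := by
    intro ℓ hℓ hℓM hℓS
    refine hf0 _ _ ?_
    rw [show χC.rangeRestrict (CuspForm.heckeAlgebra.T hℓ hℓM (Set.notMem_empty _)) =
      Subring.inclusion hle (chig.rangeRestrict (CuspForm.heckeAlgebra.T hℓ hℓM hℓS)) from
        Subtype.ext ((hχ ℓ hℓ hℓM).trans (hchig ℓ hℓ hℓM hℓS).symm)]
    exact RingHom.congr_fun hg' _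
  have hfker : ∀ t, f t = 0 → χ t = 0 := fun t ht =>
    Subtype.ext (congrArg Subtype.val (hinj ((hf0z _ ht).trans g'.map_zero.symm)) :)
  obtain ⟨D⟩ := FLTAgent.Attach.exists_heckeLattice M
  obtain ⟨ρ, hρ, -⟩ := FLTAgent.Attach.exists_galoisRepAdic hlam hlamO'' D
    (FLTAgent.Attach.galoisInputs M) f
  refine ⟨O'', iC, iD, iV, iA, iF, iZ, iAlg, iFin, iLoc, halg, ρ, ?_, ?_⟩
  · intro ℓ hℓ hℓM hℓS A hA σ hσ
    rw [← hfT ℓ hℓ hℓM hℓS]
    exact hρ ℓ hℓ hℓM (fun h => hℓS (h ▸ Finset.mem_coe.2 hlamS)) A hA σ hσ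
  · intro q hq hqlam hfac
    haveI : NeZero q := ⟨hq.ne_zero⟩
    have hd : q ^ 2 ∣ M := hfac ▸ Nat.ordProj_dvd M q
    obtain ⟨M0, hM0⟩ := hd
    have hM : M = M0 * q * q := by rw [hM0]; ring
    have hM0ne : M0 ≠ 0 := by rintro rfl; exact NeZero.ne M (by rw [hM0, mul_zero])
    haveI : NeZero M0 := ⟨hM0ne⟩
    have hqM0 : ¬ q ∣ M0 := by
      rintro ⟨c, rfl⟩
      have h3 : q ^ 3 ∣ M := ⟨c, by rw [hM0]; ring⟩
      have := (hq.pow_dvd_iff_le_factorization (NeZero.ne M)).1 h3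
      omega
    subst hM
    exact FLTAgent.SS2.not_unipotent hq hqM0 hlam hqlam hlamO'' hg χ hχ f hfker ρ {lam}
      fun ℓ hℓ hℓN hℓS => hρ ℓ hℓ hℓN fun h => hℓS (Finset.mem_singleton.2 h)

end Fermat.Agent.S36
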