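import Fermat.Statements.S42
import Fermat.Agent.Attach.FreyAttach
import Fermat.Agent.Attach.Interface
-- import your own Fermat.Agent.* helpers here

set_option autoImplicit false
open FreyPackage

namespace Fermat.Agent.S42

theorem result (P : FreyPackage) :
    ∀ M : ℕ, 0 < M → P.EigenformResidualAttachmentAt M := by
  exact fun M hM => FLTAgent.Attach.eigenformResidualAttachmentAt P M hM (fun {_} => FLTAgent.Attach.exists_heckeLattice M) (fun {_} => FLTAgent.Attach.galoisInputs M)

end Fermat.Agent.S42
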