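import Fermat.Statements.S52
import Fermat.Agent.S52.Irred3
import Fermat.Agent.S52.Model

set_option autoImplicit false
open WeierstrassCurve WeierstrassCurve.Affine WeierstrassCurve.Affine.Point
open CuspForm ModularFormClass UpperHalfPlane
open WeierstrassCurve

namespace Fermat.Agent.S52

theorem result (W : WeierstrassCurve ℤ) (hΔ : W.Δ ≠ 0) (hW : W.IsSemistableModel) (h5 : W.ModRepIsIrreducible 5) : ∃ W' : WeierstrassCurve ℤ, W'.Δ ≠ 0 ∧ W'.IsSemistableModel ∧ W'.ModRepIsIrreducible 3 ∧ ∀ ℓ : ℕ, ℓ.Prime → W.IsGoodPrimeFor ℓ → W'.IsGoodPrimeFor ℓ → ℓ ≠ 5 → (5 : ℤ) ∣ (W'.apOfModel ℓ - W.apOfModel ℓ) := by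
  by_cases h3 : W.ModRepIsIrreducible 3
  · exact ⟨W, hΔ, hW, h3, fun ℓ _ _ _ _ => by simp⟩
  obtain ⟨W', r, A, τ, hΔ', hss, ⟨s, hH, hT⟩, hr, hr2, hr3, hA, hF, hτ3, -, c, hc, hc4, hc6, hns⟩ :=
    FLTAgent.S52.exists_switch_model hΔ hW h5
  exact ⟨W', hΔ', hss,
    FLTAgent.S52.irreducible_three hΔ' hss hr hr2 hr3 hA hF hτ3 hc hc4 hc6 hns,
    fun ℓ hℓ g g' h5' => FLTAgent.S52.dvd_apOfModel_sub hΔ hΔ' s hH hT hℓ g g' h5'⟩

end Fermat.Agent.S52
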