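import Fermat.Statements.S54
import Mathlib
import Fermat.Agent.Alg.Frobenius

set_option autoImplicit false
open GaloisRep GaloisRep.DeformationRingData

namespace Fermat.Agent.S54

theorem result {𝒪 : Type} [CommRing 𝒪] [IsDomain 𝒪] [IsDiscreteValuationRing 𝒪] [IsAdicComplete (IsLocalRing.maximalIdeal 𝒪) 𝒪] {ρbar : ResidualGaloisRep (IsLocalRing.ResidueField 𝒪)} {𝒟 : ∀ ⦃A : Type⦄ [CommRing A] [IsLocalRing A] [Algebra 𝒪 A], GaloisRepAdic A → Prop} (D : GaloisRep.DeformationRingData 𝒪 ρbar 𝒟) {N : ℕ} [NeZero N] {S : Set ℕ} {θ : CuspForm.heckeAlgebra N 2 S →+* IsLocalRing.ResidueField 𝒪} {T : Type} [CommRing T] [IsLocalRing T] [IsNoetherianRing T] [IsAdicComplete (IsLocalRing.maximalIdeal T) T] [Algebra 𝒪 T] [IsLocalHom (algebraMap 𝒪 T)] [Module.Finite 𝒪 T] [Module.Free 𝒪 T] (H : CuspForm.HeckeGaloisRepDatum N S 𝒪 θ T) (hS : ∀ q : ℕ, q.Prime → q ∣ N → q ∈ S) (h𝒟 : 𝒟 H.ρ) (hres : H.ρ.residual.IsEquiv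 (ρbar.baseChangeAlong (IsLocalRing.ResidueField.map (algebraMap 𝒪 T)))) : ∃ φ : D.R →ₐ[𝒪] T, Function.Surjective φ ∧ ∃ hφ : IsLocalHom (φ : D.R →+* T), (D.ρ.baseChangeAlong (φ : D.R →+* T) hφ).IsEquiv H.ρ := by
  obtain ⟨φ, ⟨hφ, ⟨e⟩⟩, -⟩ := D.universal T H.residue_surjective H.ρ h𝒟 hres
  refine ⟨φ, ?_, hφ, ⟨e⟩⟩
  have hT : ∀ (ℓ : ℕ) (hℓ : ℓ.Prime) (hℓN : ¬ ℓ ∣ N) (hℓS : ℓ ∉ S),
      H.π (CuspForm.heckeAlgebra.T hℓ hℓN hℓS) ∈ φ.range := by
    intro ℓ hℓ hℓN hℓS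
    obtain ⟨A, σ, hA, hσ⟩ := FLTAgent.Alg.exists_place_frobenius ℓ hℓ
    have h := H.charpoly_frob ℓ hℓ hℓN hℓS A hA σ hσ
    letI : Algebra D.R T := (φ : D.R →+* T).toAlgebra
    have hc : LinearMap.charpoly (H.ρ.ρ σ) =
        (LinearMap.charpoly (D.ρ.ρ σ)).map (algebraMap D.R T) := by
      rw [← LinearMap.charpoly_baseChange]
      refine Eq.trans ?_ (LinearEquiv.charpoly_conj e.toLinearEquiv (((GaloisRepAdic.baseChangeAlong (φ : D.R →+* T) hφ D.ρ).ρ σ)))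
      congr 1
      refine LinearMap.ext fun x => ?_
      rw [LinearEquiv.conj_apply_apply]
      refine Eq.trans ?_ (e.map_apply σ (e.toLinearEquiv.symm x)).symm
      exact congrArg (H.ρ.ρ σ) (e.toLinearEquiv.apply_symm_apply x).symm
    have h1 := congrArg (fun p => Polynomial.coeff p 1) (hc.symm.trans h)
    simp only [Polynomial.coeff_map, Polynomial.coeff_add, Polynomial.coeff_sub,
      Polynomial.coeff_X_pow, Polynomial.coeff_C_mul, Polynomial.coeff_X_one,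
      Polynomial.coeff_C, one_ne_zero, if_false, mul_one, add_zero] at h1
    refine ⟨-(LinearMap.charpoly (D.ρ.ρ σ)).coeff 1, ?_⟩
    change φ (-(LinearMap.charpoly (D.ρ.ρ σ)).coeff 1) = _
    rw [map_neg]
    change -(algebraMap D.R T) _ = _
    rw [h1]
    norm_num
  have hle : Set.range H.π ⊆ (φ.range : Set T) := by
    rintro _ ⟨⟨t, ht⟩, rfl⟩
    refine Algebra.adjoin_induction
      (p := fun t ht => H.π ⟨t, ht⟩ ∈ φ.range) ?_ ?_ ?_ ?_ ht
    · intro t ht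
      rcases ht with ⟨ℓ, hℓ, hℓN, hℓS, rfl⟩ | ⟨q, hqN, hq, hqS, rfl⟩
      · exact hT ℓ hℓ hℓN hℓS
      · exact absurd (hS q hq hqN) hqS
    · intro n
      have : H.π ⟨algebraMap ℤ _ n, Subalgebra.algebraMap_mem _ n⟩ = (n : T) := by
        have := map_intCast H.π n
        rw [← this]
        congr 1
      rw [this]
      exact intCast_mem _ n
    · intro x y hx hy h1 h2
      have h3 := add_mem h1 h2
      rwa [← map_add] at h3
    · intro x y hx hy h1 h2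
      have h3 := mul_mem h1 h2
      rwa [← map_mul] at h3
  intro t
  have : t ∈ Algebra.adjoin 𝒪 (Set.range H.π) := by rw [H.adjoin_range_π]; trivial
  exact Algebra.adjoin_le hle this

end Fermat.Agent.S54
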