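import Fermat.Statements.S57
import Mathlib
import Fermat.Agent.Alg.PowerSeriesRegular

set_option autoImplicit false
open Algebra Algebra.PatchingLevel

namespace Fermat.Agent.S57

theorem result
    {𝒪 : Type} [CommRing 𝒪] [IsDomain 𝒪] [IsDiscreteValuationRing 𝒪]
    {r : ℕ} {R : Type} [CommRing R] [Algebra 𝒪 R]
    {M : Type} [AddCommGroup M] [Module R M] [Nontrivial M]
    (L : Algebra.PatchingLevel 𝒪 r R M ⊥) :
    Module.Free R M ∧ Module.annihilator R M = ⊥ ∧
      RingHom.ker L.ψ = Ideal.span (Set.range fun i : Fin r => L.φ (MvPowerSeries.X i)) := by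
  classical
  have hRnt : Nontrivial R := Module.nontrivial R M
  have hNnt : Nontrivial L.N := L.π_surjective.nontrivial
  set I : Ideal (MvPowerSeries (Fin r) 𝒪) :=
    Ideal.span (Set.range fun i : Fin r => L.φ (MvPowerSeries.X i)) with hI
  have hloc : ∀ i, L.φ (MvPowerSeries.X i) ∈
      IsLocalRing.maximalIdeal (MvPowerSeries (Fin r) 𝒪) := by
    intro i
    rw [IsLocalRing.mem_maximalIdeal, mem_nonunits_iff]
    intro hu
    have h := hu.map L.ψ
    rw [L.ψ_φ_X i] at h
    exact not_isUnit_zero h
  haveI : Module.Free (MvPowerSeries (Fin r) 𝒪) L.N :=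
    FLTAgent.Alg.free_of_free_via_hom L.φ hloc L.b L.b_span
      (fun c hc i => by simpa using (L.b_rel c).1 hc i)
  let β := Module.Free.chooseBasis (MvPowerSeries (Fin r) 𝒪) L.N
  set v := fun i => L.π (β i) with hv
  obtain ⟨i0⟩ := β.index_nonempty
  have hcoord : ∀ x ∈ I • (⊤ : Submodule (MvPowerSeries (Fin r) 𝒪) L.N),
      ∀ i, β.repr x i ∈ I := by
    intro x hx i
    refine Submodule.smul_induction_on hx ?_ ?_
    · intro a ha n _
      simpa using I.mul_mem_right _ ha
    · intro a b ha hb
      simpa using add_mem ha hb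
  have hπsum : ∀ (s : Finset _) (c : _ → MvPowerSeries (Fin r) 𝒪),
      L.π (∑ i ∈ s, c i • β i) = ∑ i ∈ s, L.ψ (c i) • v i := by
    intro s c
    simp [map_sum, L.π_smul, hv]
  have hker : RingHom.ker L.ψ = I := by
    apply le_antisymm
    · intro f hf
      have : L.π (f • β i0) = 0 := by
        rw [L.π_smul, RingHom.mem_ker.1 hf, zero_smul]
      have := hcoord _ ((L.ker_π _).1 this) i0
      simpa using this
    · rw [hI, Ideal.span_le]
      rintro _ ⟨i, rfl⟩
      exact L.ψ_φ_X i
  have hindep : LinearIndependent R v := by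
    rw [linearIndependent_iff']
    intro s g hg i hi
    choose c hc using fun j => L.ψ_surjective (g j)
    have h0 : L.π (∑ j ∈ s, c j • β j) = 0 := by
      rw [hπsum]; simpa [hc] using hg
    have := hcoord _ ((L.ker_π _).1 h0) i
    rw [map_sum, Finsupp.finsetSum_apply] at this
    simp only [map_smul, β.repr_self, Finsupp.smul_single, smul_eq_mul, mul_one,
      Finsupp.single_apply, Finset.sum_ite_eq', hi, if_true] at this
    rw [← hker, RingHom.mem_ker, hc] at this
    exact this
  have hspan : ⊤ ≤ Submodule.span R (Set.range v) := by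
    intro m _
    obtain ⟨x, rfl⟩ := L.π_surjective m
    rw [← β.linearCombination_repr x, Finsupp.linearCombination_apply, Finsupp.sum, hπsum]
    exact Submodule.sum_mem _ fun i _ =>
      Submodule.smul_mem _ _ (Submodule.subset_span ⟨i, rfl⟩)
  refine ⟨Module.Free.of_basis (Module.Basis.mk hindep hspan), ?_, hker⟩
  rw [eq_bot_iff]
  intro a ha
  rw [Module.mem_annihilator] at ha
  have h := linearIndependent_iff'.1 hindep {i0} (fun _ => a) (by simp [ha]) i0 (by simp)
  exact h

end Fermat.Agent.S57
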