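import Fermat.Statements.S58
import Fermat.Agent.S58.Level

set_option autoImplicit false
set_option autoImplicit false
open WeierstrassCurve

namespace Fermat.Agent.S58

theorem result
    (W : WeierstrassCurve ℤ) (hss : W.IsSemistableModel) (N : ℕ)
    (p : ℕ) [Fact p.Prime] (hp2 : p ≠ 2) (hirr : W.ModRepIsIrreducible p)
    (hp2N : ¬ p ^ 2 ∣ N)
    (hN : W.IsModularModelOfLevel N) (hbad : ∀ ℓ : ℕ, ℓ.Prime → (ℓ : ℤ) ∣ W.Δ → ℓ ∣ N)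
    (hN3 : ∀ q : ℕ, q.Prime → ¬ q ^ 3 ∣ N) :
    W.IsModularModelOfLevel W.conductorLevel := by
  classical
  have hN0 : N ≠ 0 := fun h => hN3 2 Nat.prime_two (h ▸ dvd_zero _)
  haveI : NeZero N := ⟨hN0⟩
  have hΔ : W.Δ ≠ 0 := fun h => by
    obtain ⟨ℓ, hℓN, hℓ⟩ := Nat.exists_infinite_primes (N + 1)
    have := Nat.le_of_dvd (Nat.pos_of_ne_zero hN0) (hbad ℓ hℓ (h ▸ dvd_zero _))
    omega
  obtain ⟨f, hf, hfa⟩ := hN
  have hex : ∃ M, M ∣ N ∧ CuspForm.GoodEigensystemOccursAt f M :=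
    ⟨N, dvd_rfl, CuspForm.GoodEigensystemOccursAt.refl hf⟩
  obtain ⟨hMN, g, hg, hgf⟩ := Nat.find_spec hex
  haveI : NeZero (Nat.find hex) := ⟨fun h => hN0 (Nat.eq_zero_of_zero_dvd (h ▸ hMN))⟩
  have hnew : g.IsNewform := by
    refine ⟨hg, fun M' hd hne => ?_⟩
    rintro ⟨g', hg', hg'g⟩
    have hlt : M' < Nat.find hex :=
      lt_of_le_of_ne (Nat.le_of_dvd (Nat.pos_of_ne_zero (NeZero.ne _)) hd) hne
    exact Nat.find_min hex hlt ⟨hd.trans hMN, g', hg', fun ℓ hℓ hℓN =>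
      (hg'g ℓ hℓ fun h => hℓN (h.trans hMN)).trans (hgf ℓ hℓ hℓN)⟩
  have hS : ∀ ℓ : ℕ, ℓ.Prime → ℓ ∉ N.primeFactors → ¬ (ℓ : ℤ) ∣ W.Δ → ¬ ℓ ∣ Nat.find hex →
      ModularFormClass.qCoeff g ℓ = ((W.apOfModel ℓ : ℤ) : ℂ) := by
    intro ℓ hℓ hℓS hgood _
    have hℓN : ¬ ℓ ∣ N := fun h => hℓS (Nat.mem_primeFactors.2 ⟨hℓ, h, hN0⟩)
    exact (hgf ℓ hℓ hℓN).trans (hfa ℓ hℓ hgood hℓN)
  have hM := FLTAgent.S58.level_eq_conductorLevel hnew hΔ hss N.primeFactors hS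
    fun q hq hd => hN3 q hq (hd.trans hMN)
  rw [← hM]
  exact ⟨g, hg, fun ℓ hℓ hgood hℓM =>
    FLTAgent.S58.qCoeff_eq hnew hΔ N.primeFactors hS hℓ hgood hℓM⟩

end Fermat.Agent.S58
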